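import Fermat.Agent.S55.Local.Spec
import Fermat.Agent.S55.Local.H715.Integers

/-!
# S55 layer L, piece UR0/UR1 (helper312): abstract core

`G` a finite group acting on a Dedekind domain `S` with invariant ring `R` (`IsGaloisGroup G R S`).
Unramifiedness hypothesis `hunr`: every nonzero element of `S` is an element of `R` times a unit
of `S`.  Then every prime of `S` is `G`-stable, has ramification index `1` and trivial inertia
group, and `G` embeds into the automorphism group of the residue field extension; if the residue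
fields are finite, `G` is cyclic.
-/

set_option autoImplicit false
set_option linter.overlappingInstances false
set_option linter.style.haveILetI false
set_option linter.unusedSectionVars false

namespace Fermat.Agent.S55.Local.H312

open Fermat.Agent.S55.Local
open scoped Pointwise

section Core

variable {R S G : Type} [CommRing R] [CommRing S] [Algebra R S] [Group G]
  [MulSemiringAction G S] [IsGaloisGroup G R S]

/-- If every nonzero element of `S` is an element of `R` times a unit of `S`, then every prime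
ideal of `S` is `G`-stable. -/
theorem smul_mem_of_unram
    (hunr : ∀ x : S, x ≠ 0 → ∃ (y : R) (u : Sˣ), x = algebraMap R S y * u)
    (Q : Ideal S) [Q.IsPrime] (σ : G) (x : S) (hx : x ∈ Q) : σ • x ∈ Q := by
  by_cases hx0 : x = 0
  · subst hx0; simp
  obtain ⟨y, u, rfl⟩ := hunr x hx0
  have hy : algebraMap R S y ∈ Q := by
    rcases Ideal.IsPrime.mem_or_mem ‹Q.IsPrime› hx with h | h
    · exact h
    · exact absurd (Q.eq_top_of_isUnit_mem h u.isUnit) (Ideal.IsPrime.ne_top ‹_›)
  rw [smul_mul', smul_algebraMap]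
  exact Q.mul_mem_right _ hy

theorem stabilizer_eq_top_of_unram
    (hunr : ∀ x : S, x ≠ 0 → ∃ (y : R) (u : Sˣ), x = algebraMap R S y * u)
    (Q : Ideal S) [Q.IsPrime] :
    MulAction.stabilizer G Q = ⊤ := by
  rw [eq_top_iff]
  intro σ _
  rw [MulAction.mem_stabilizer_iff]
  apply le_antisymm
  · intro x hx
    have h1 : σ⁻¹ • x ∈ Q := by
      rw [← Ideal.smul_mem_pointwise_smul_iff (a := σ), smul_inv_smul]
      exact hx
    have := smul_mem_of_unram hunr Q σ _ h1
    rwa [smul_inv_smul] at this
  · intro x hx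
    have h1 := smul_mem_of_unram hunr Q σ⁻¹ x hx
    rw [← Ideal.smul_mem_pointwise_smul_iff (a := σ), smul_inv_smul] at h1
    exact h1


variable [IsDomain R] [IsDomain S] [IsDedekindDomain S] [Module.Finite R S] [Finite G]

theorem ramificationIdx_eq_one_of_unram
    (hunr : ∀ x : S, x ≠ 0 → ∃ (y : R) (u : Sˣ), x = algebraMap R S y * u)
    (P : Ideal R) (Q : Ideal S) [Q.IsPrime] [Q.LiesOver P] (hQ0 : Q ≠ ⊥) :
    Q.ramificationIdx R = 1 := by
  have hQ1 : Q ≠ ⊤ := Ideal.IsPrime.ne_top ‹_›
  obtain ⟨x, hx1, hx2⟩ := Ideal.exists_mem_pow_notMem_pow_succ Q hQ0 hQ1 1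
  rw [pow_one] at hx1
  have hx0 : x ≠ 0 := by
    rintro rfl
    exact hx2 (Ideal.zero_mem _)
  obtain ⟨y, u, rfl⟩ := hunr x hx0
  have hy : algebraMap R S y ∈ Q := by
    rcases Ideal.IsPrime.mem_or_mem ‹Q.IsPrime› hx1 with h | h
    · exact h
    · exact absurd (Q.eq_top_of_isUnit_mem h u.isUnit) hQ1
  have hyP : y ∈ P := by
    rw [Ideal.LiesOver.over (p := P) (P := Q)]
    exact hy
  have hymap : algebraMap R S y ∈ P.map (algebraMap R S) := Ideal.mem_map_of_mem _ hyP
  have hpS : P.map (algebraMap R S) ≠ ⊥ := by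
    intro h
    rw [h, Ideal.mem_bot] at hymap
    rw [hymap, zero_mul] at hx0
    exact hx0 rfl
  rw [← Ideal.ramificationIdx'_eq_ramificationIdx' P Q hpS]
  apply Ideal.ramificationIdx'_spec
  · rw [pow_one, Ideal.map_le_iff_le_comap, Ideal.LiesOver.over (p := P) (P := Q)]
  · intro hle
    exact hx2 (Ideal.mul_mem_right _ _ (hle hymap))

theorem inertia_eq_bot_of_unram
    (hunr : ∀ x : S, x ≠ 0 → ∃ (y : R) (u : Sˣ), x = algebraMap R S y * u)
    (P : Ideal R) [P.IsPrime] (Q : Ideal S) [Q.IsPrime] [Q.LiesOver P] (hQ0 : Q ≠ ⊥)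
    [PerfectField P.ResidueField] [Module.Flat R S] :
    Ideal.inertia G Q = ⊥ := by
  have h1 := Ideal.card_inertia_eq_ramificationIdxIn (G := G) P Q
  rw [Ideal.ramificationIdxIn_eq_ramificationIdx P Q G,
    ramificationIdx_eq_one_of_unram hunr P Q hQ0] at h1
  exact (Subgroup.card_eq_one).1 h1


attribute [local instance] Ideal.Quotient.field in
theorem isCyclic_of_unram
    (hunr : ∀ x : S, x ≠ 0 → ∃ (y : R) (u : Sˣ), x = algebraMap R S y * u)
    (hS : ¬ IsField S) (hfin : ∀ P : Ideal R, P.IsMaximal → Finite (R ⧸ P))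
    [Module.Flat R S] : IsCyclic G := by
  obtain ⟨Q, hQ⟩ := Ideal.exists_maximal S
  have hQ0 : Q ≠ ⊥ := Ring.ne_bot_of_isMaximal_of_not_isField hQ hS
  have hint : Algebra.IsIntegral R S := inferInstance
  let P : Ideal R := Q.under R
  have hPmax : P.IsMaximal := Ideal.isMaximal_comap_of_isIntegral_of_isMaximal Q
  have hfinP : Finite (R ⧸ P) := hfin P hPmax
  have hfinQ : Finite (S ⧸ Q) := Module.finite_of_finite (R ⧸ P)
  have hstab := stabilizer_eq_top_of_unram (G := G) hunr Q
  have hin := inertia_eq_bot_of_unram (G := G) hunr P Q hQ0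
  have hinj : Function.Injective (Ideal.Quotient.stabilizerHom Q P G) := by
    rw [← MonoidHom.ker_eq_bot_iff, Ideal.Quotient.ker_stabilizerHom, eq_bot_iff]
    intro σ hσ
    have : (σ : G) ∈ Ideal.inertia G Q := fun x => hσ x
    rw [hin, Subgroup.mem_bot] at this
    exact Subtype.ext this
  have hcyc : IsCyclic (MulAction.stabilizer G Q) :=
    isCyclic_of_injective (Ideal.Quotient.stabilizerHom Q P G) hinj
  refine isCyclic_of_surjective (MulAction.stabilizer G Q).subtype ?_
  intro g
  exact ⟨⟨g, by rw [hstab]; trivial⟩, rfl⟩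

end Core
end Fermat.Agent.S55.Local.H312
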