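import Fermat.Agent.S55.Local.Spec
import Fermat.Agent.S55.Local.H715.Integers
import Fermat.Agent.S55.Local.H312.UnramCore

/-!
# S55 layer L, piece UR1 (helper312): an unramified Galois extension of local fields is cyclic

`unramCyclic : Fermat.Agent.S55.Local.UnramCyclicStatement`.
Route: `R = integralClosure A K`, `S = integralClosure R L`; `IsUnram` gives that every nonzero
element of `S` is (element of `R`) * (unit of `S`); then `UnramCore.isCyclic_of_unram`.
(No completeness of `A` is used beyond what `H715.Integers` needs for finiteness of quotients.)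
-/

set_option autoImplicit false
set_option linter.overlappingInstances false
set_option linter.style.haveILetI false
set_option linter.unusedSectionVars false

namespace Fermat.Agent.S55.Local.H312

open Fermat.Agent.S55.Local
open scoped Pointwise

section Generic

variable (A K L : Type) [CommRing A] [Field K] [Field L] [Algebra A K] [Algebra K L]
  [Algebra A L] [IsScalarTower A K L]

lemma isScalarTower_intClosure : IsScalarTower A (integralClosure A K) L :=
  IsScalarTower.of_algebraMap_eq (fun a => IsScalarTower.algebraMap_apply A K L a)

attribute [local instance] isScalarTower_intClosure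

/-- elements of `integralClosure (integralClosure A K) L` are integral over `A`. -/
lemma isIntegral_of_mem_OL (x : integralClosure (integralClosure A K) L) :
    IsIntegral A (x : L) :=
  isIntegral_trans (R := A) (A := integralClosure A K) (x : L) x.2

lemma hunr_of_units
    (h : ∀ x : Lˣ, ∃ y : Kˣ,
      IsIntegral A ((x * (Units.map (algebraMap K L).toMonoidHom y)⁻¹ : Lˣ) : L) ∧
      IsIntegral A (((x * (Units.map (algebraMap K L).toMonoidHom y)⁻¹)⁻¹ : Lˣ) : L))
    (x : integralClosure (integralClosure A K) L) (hx : x ≠ 0) :
    ∃ (y : integralClosure A K) (u : (integralClosure (integralClosure A K) L)ˣ),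
      x = algebraMap (integralClosure A K) (integralClosure (integralClosure A K) L) y * u := by
  have hxL : (x : L) ≠ 0 := fun h => hx (Subtype.ext h)
  obtain ⟨yK, hu1, hu2⟩ := h (Units.mk0 (x : L) hxL)
  set v : Lˣ := Units.map (algebraMap K L).toMonoidHom yK with hv
  set u₀ : Lˣ := Units.mk0 (x : L) hxL * v⁻¹ with hu₀
  have hv1 : (v : L) = algebraMap K L (yK : K) := rfl
  have h2 : (Units.mk0 (x : L) hxL) * u₀⁻¹ = v := by
    rw [hu₀, mul_inv_rev, inv_inv, mul_comm v _, ← mul_assoc, mul_inv_cancel, one_mul]
  have h3 : v * u₀ = Units.mk0 (x : L) hxL := by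
    rw [hu₀, mul_comm (Units.mk0 (x : L) hxL) _, ← mul_assoc, mul_inv_cancel, one_mul]
  have hyint : IsIntegral A (algebraMap K L (yK : K)) := by
    have e : algebraMap K L (yK : K) = (x : L) * ((u₀⁻¹ : Lˣ) : L) := by
      rw [← hv1, ← h2]; rfl
    rw [e]
    exact (isIntegral_of_mem_OL A K L x).mul hu2
  rw [isIntegral_algebraMap_iff (algebraMap K L).injective] at hyint
  let u : (integralClosure (integralClosure A K) L)ˣ :=
    { val := ⟨(u₀ : L), hu1.tower_top⟩
      inv := ⟨((u₀⁻¹ : Lˣ) : L), hu2.tower_top⟩
      val_inv := Subtype.ext (by simp)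
      inv_val := Subtype.ext (by simp) }
  refine ⟨⟨(yK : K), hyint⟩, u, Subtype.ext ?_⟩
  have h4 : (x : L) = algebraMap K L (yK : K) * (u₀ : L) := by
    rw [← hv1, ← Units.val_mul, h3, Units.val_mk0]
  rw [Subalgebra.coe_mul, Subalgebra.coe_algebraMap]
  exact h4

lemma algebraMap_OK_OL_injective :
    Function.Injective
      (algebraMap (integralClosure A K) (integralClosure (integralClosure A K) L)) := by
  intro a b hab
  have h' : algebraMap (integralClosure A K) L a = algebraMap (integralClosure A K) L b := by
    rw [IsScalarTower.algebraMap_apply (integralClosure A K)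
      (integralClosure (integralClosure A K) L) L, hab,
      ← IsScalarTower.algebraMap_apply (integralClosure A K)
      (integralClosure (integralClosure A K) L) L]
  exact Subtype.ext ((algebraMap K L).injective h')

end Generic

section AKLB

variable (R K L S : Type) [CommRing R] [IsDomain R] [IsDedekindDomain R]
  [Field K] [Field L] [Algebra R K] [IsFractionRing R K] [Algebra K L] [Algebra R L]
  [IsScalarTower R K L] [FiniteDimensional K L] [IsGalois K L]
  [CommRing S] [IsDomain S] [IsDedekindDomain S] [Algebra R S] [Algebra S L]
  [IsScalarTower R S L] [IsIntegralClosure S R L] [Module.Finite R S] [IsFractionRing S L]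
  [Module.Flat R S]

theorem isCyclic_gal_of_hunr
    (hunr : ∀ x : S, x ≠ 0 → ∃ (y : R) (u : Sˣ), x = algebraMap R S y * u)
    (hS : ¬ IsField S) (hfin : ∀ P : Ideal R, P.IsMaximal → Finite (R ⧸ P)) :
    IsCyclic Gal(L/K) := by
  letI : MulSemiringAction Gal(L/K) S := IsIntegralClosure.MulSemiringAction R K L S
  haveI : IsGaloisGroup Gal(L/K) R S := IsGaloisGroup.of_isFractionRing _ _ _ K L
  exact isCyclic_of_unram hunr hS hfin

end AKLB

section Bridge

variable (A F : Type) [CommRing A] [IsDomain A] [IsDiscreteValuationRing A]
    [IsAdicComplete (IsLocalRing.maximalIdeal A) A] [Finite (IsLocalRing.ResidueField A)]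
    [Field F] [CharZero F] [Algebra A F] [IsFractionRing A F]
    (K : Type) [Field K] [Algebra F K] [FiniteDimensional F K]
    (L : Type) [Field L] [Algebra F L] [Algebra K L] [IsScalarTower F K L]
    [FiniteDimensional K L] [IsGalois K L]

theorem unramCyclic_aux (hunram : IsUnram A F L K) : IsCyclic (L ≃ₐ[K] L) := by
  letI : Algebra A K := H715.algAL A F K
  haveI : IsScalarTower A F K := H715.isScalarTower_algAL A F K
  letI : Algebra A L := H715.algAL A F L
  haveI : IsScalarTower A F L := H715.isScalarTower_algAL A F L
  haveI : IsScalarTower A K L := IsScalarTower.of_algebraMap_eq (fun a => by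
    show toL A F L a = algebraMap K L (algebraMap F K (algebraMap A F a))
    rw [toL_apply, ← IsScalarTower.algebraMap_apply F K L])
  haveI : IsFractionRing (integralClosure A K) K := H715.isFractionRing_OL A F K
  haveI : IsDedekindDomain (integralClosure A K) := H715.isDedekindDomain_OL A F K
  haveI : IsDedekindDomain (integralClosure (integralClosure A K) L) :=
    IsIntegralClosure.isDedekindDomain (integralClosure A K) K L _
  haveI : Module.Finite (integralClosure A K) (integralClosure (integralClosure A K) L) :=
    IsIntegralClosure.finite (integralClosure A K) K L _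
  haveI : IsFractionRing (integralClosure (integralClosure A K) L) L :=
    IsIntegralClosure.isFractionRing_of_finite_extension (integralClosure A K) K L _
  refine isCyclic_gal_of_hunr (integralClosure A K) K L (integralClosure (integralClosure A K) L)
    ?_ ?_ ?_
  · refine hunr_of_units A K L ?_
    intro x
    obtain ⟨y, hy1, hy2⟩ := hunram x
    rw [H715.isInt_iff] at hy1 hy2
    exact ⟨y, hy1, hy2⟩
  · intro h
    have hint : Algebra.IsIntegral (integralClosure A K)
      (integralClosure (integralClosure A K) L) := inferInstance
    exact H715.not_isField_OL A F K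
      (isField_of_isIntegral_of_isField (algebraMap_OK_OL_injective A K L) h)
  · intro P hP
    exact H715.finite_quotient_OL A F K P
      (Ring.ne_bot_of_isMaximal_of_not_isField hP (H715.not_isField_OL A F K))

theorem unramCyclic : UnramCyclicStatement := by
  intro A F _ _ _ _ _ _ _ _ _ K _ _ _ L _ _ _ _ _ _ h
  exact unramCyclic_aux A F K L h

end Bridge

end Fermat.Agent.S55.Local.H312
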